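/-
S35lib / R3 (lead), step 4: the adic block X of S30 with the **Frobenius-new clause**: for a prime
`q ∥ N`, `q ≠ p`, every Frobenius lift `σ` at `q` satisfies `(ρ(σ)² - 1)(ρ(σ)² - q²) = 0`.
* good case: `ρ = toLin' ∘ M` over `O`, the relation is transported by the algebra isomorphism
  `toLin'`;
* commutative case: the eigen-character `c` satisfies `(c(σ)² - 1)(c(σ)² - q²) = 0`, and the
  cyclotomic character takes the value `q` at `σ`, so the diagonal piece `c ⊕ χ c⁻¹` satisfies the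
  relation entrywise.
-/
import Fermat.Agent.S29lib.S30.AdicX

set_option autoImplicit false
set_option linter.unusedSectionVars false
set_option linter.style.haveILetI false

noncomputable section

namespace Fermat.Agent.S35lib

open Fermat.Agent.S29lib.X Fermat.Agent.ExtVan.InertiaLift Polynomial Matrix IsLocalRing
  Fermat.Agent.S29lib.S30

/-! ### the Frobenius-new clause for adic pieces -/

section Piece

variable {N p : ℕ} {A : Type} [CommRing A] [IsLocalRing A] {a : Nat.Primes → A}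

/-- the Frobenius-new clause for an adic piece: `(M(σ)² - 1)(M(σ)² - q²) = 0` for every Frobenius
lift `σ` at a prime `q ∥ N`, `q ≠ p`. -/
def IsFrobNewPiece (P : AdicPiece N p A a) : Prop :=
  ∀ q : ℕ, q.Prime → q ≠ p → q ∣ N → ¬ q ^ 2 ∣ N →
    ∀ B : ValuationSubring Qb, B.LiesOverPrime q → ∀ σ : GQ, B.IsFrobeniusAt σ q →
      (P.M σ * P.M σ - 1) * (P.M σ * P.M σ - ((q : A) ^ 2) • (1 : Matrix (Fin 2) (Fin 2) A)) = 0

/-- the Frobenius-new clause for a representation. -/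
def IsFrobNewRep (N p : ℕ) (ρ : GaloisRepAdic A) : Prop :=
  ∀ q : ℕ, q.Prime → q ≠ p → q ∣ N → ¬ q ^ 2 ∣ N →
    ∀ B : ValuationSubring Qb, B.LiesOverPrime q → ∀ σ : GQ, B.IsFrobeniusAt σ q →
      (ρ.ρ σ * ρ.ρ σ - 1) * (ρ.ρ σ * ρ.ρ σ - ((q : A) ^ 2) • (1 : Module.End A ρ.V)) = 0

theorem toRep_isFrobNewRep (P : AdicPiece N p A a) (hP : IsFrobNewPiece P) :
    IsFrobNewRep N p P.toRep := by
  intro q hq hqp hqN hq2 B hB σ hσ
  have h0 := hP q hq hqp hqN hq2 B hB σ hσ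
  let Φ : Matrix (Fin 2) (Fin 2) A ≃ₐ[A] Module.End A (Fin 2 → A) := Matrix.toLinAlgEquiv'
  have hΦ : P.toRep.ρ σ = Φ (P.M σ) := rfl
  have h1 : Φ ((P.M σ * P.M σ - 1) *
      (P.M σ * P.M σ - ((q : A) ^ 2) • (1 : Matrix (Fin 2) (Fin 2) A))) = 0 := by
    rw [h0, map_zero]
  have e1 := map_mul Φ (P.M σ * P.M σ - 1)
    (P.M σ * P.M σ - ((q : A) ^ 2) • (1 : Matrix (Fin 2) (Fin 2) A))
  have e2 := map_sub Φ (P.M σ * P.M σ) 1
  have e3 := map_sub Φ (P.M σ * P.M σ) (((q : A) ^ 2) • (1 : Matrix (Fin 2) (Fin 2) A))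
  have e4 := map_mul Φ (P.M σ) (P.M σ)
  have e5 := map_smul Φ ((q : A) ^ 2) (1 : Matrix (Fin 2) (Fin 2) A)
  have e6 := map_one Φ
  rw [e1, e2, e3, e4, e5, e6] at h1
  rw [hΦ]
  exact h1

end Piece

/-! ### diagonal matrices -/

theorem diagonal_frobNew {R : Type*} [CommRing R] (x y b : R)
    (hx : (x ^ 2 - 1) * (x ^ 2 - b) = 0) (hy : (y ^ 2 - 1) * (y ^ 2 - b) = 0) :
    (Matrix.diagonal ![x, y] * Matrix.diagonal ![x, y] - 1) *
      (Matrix.diagonal ![x, y] * Matrix.diagonal ![x, y]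
        - b • (1 : Matrix (Fin 2) (Fin 2) R)) = 0 := by
  have h1 : (1 : Matrix (Fin 2) (Fin 2) R) = Matrix.diagonal ![1, 1] := by
    ext i j
    fin_cases i <;> fin_cases j <;> simp
  have h2 : b • (1 : Matrix (Fin 2) (Fin 2) R) = Matrix.diagonal ![b, b] := by
    ext i j
    fin_cases i <;> fin_cases j <;> simp
  rw [h2, h1, Matrix.diagonal_mul_diagonal, Matrix.diagonal_sub, Matrix.diagonal_sub,
    Matrix.diagonal_mul_diagonal]
  ext i j
  fin_cases i <;> fin_cases j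
  · simp
    linear_combination hx
  · simp
  · simp
  · simp
    linear_combination hy

/-! ### The commutative case -/

section Bad

variable {N p : ℕ} [hpf : Fact p.Prime] {O : Type} [CommRing O] [IsDomain O]
  [IsDiscreteValuationRing O] [IsAdicComplete (maximalIdeal O) O] [Finite (ResidueField O)]
  [CharZero O] {a : Nat.Primes → O}

/-- the diagonal piece `c ⊕ χ c⁻¹` over an extension `O₂`, with the Frobenius-new clause (copy of
`S30.exists_good_piece_of_commute` with one more hypothesis and one more conclusion). -/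
theorem exists_good_piece_of_commute_fn (hpO : (p : O) ∈ maximalIdeal O)
    (P : AdicPiece N p O a) (hPF : IsFrobNewPiece P)
    (hcomm : ∀ σ τ : GQ, Commute (P.M σ) (P.M τ)) :
    ∃ (O₂ : Type) (_ : CommRing O₂) (_ : IsDomain O₂) (_ : IsDiscreteValuationRing O₂)
      (_ : IsAdicComplete (maximalIdeal O₂) O₂) (_ : Finite (ResidueField O₂)) (_ : CharZero O₂)
      (_ : Algebra O O₂) (_ : Module.Finite O O₂) (_ : IsLocalHom (algebraMap O O₂)),
      Function.Injective (algebraMap O O₂) ∧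
      ∃ P₂ : AdicPiece N p O₂ (fun ℓ => algebraMap O O₂ (a ℓ)), P₂.IsGood ∧ IsFrobNewPiece P₂ := by
  classical
  have hp : p.Prime := hpf.out
  obtain ⟨O₂, i1, i2, i3, i4, i5, i6, i7, i8, i9, hinj, c, hcont, htriv, hrel⟩ :=
    exists_eigenChar P.M hcomm
  refine ⟨O₂, i1, i2, i3, i4, i5, i6, i7, i8, i9, hinj, ?_⟩
  -- `p` lies in the maximal ideal of `O₂`
  have hmap : ∀ x : O, x ∈ maximalIdeal O → algebraMap O O₂ x ∈ maximalIdeal O₂ := by
    intro x hx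
    rw [mem_maximalIdeal, mem_nonunits_iff] at hx ⊢
    exact fun hu => hx (i9.map_nonunit x hu)
  have hp₂ : (p : O₂) ∈ maximalIdeal O₂ := by
    have := hmap (p : O) hpO
    rwa [map_natCast] at this
  set χ₂ : GQ →* O₂ˣ := chiAdic p (maximalIdeal O₂) hp₂ with hχ₂
  set d₁ : GQ →* O₂ := (Units.coeHom O₂).comp c with hd₁
  set d₂ : GQ →* O₂ := (Units.coeHom O₂).comp (χ₂ / c) with hd₂
  have hd₁a : ∀ σ, d₁ σ = ((c σ : O₂ˣ) : O₂) := fun _ => rfl
  have hd₂a : ∀ σ, d₂ σ = ((χ₂ σ : O₂ˣ) : O₂) * (((c σ)⁻¹ : O₂ˣ) : O₂) := fun σ => by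
    rw [hd₂, MonoidHom.comp_apply, MonoidHom.div_apply, div_eq_mul_inv, Units.coeHom_apply,
      Units.val_mul]
  have huw : ∀ σ, ((c σ : O₂ˣ) : O₂) * (((c σ)⁻¹ : O₂ˣ) : O₂) = 1 := fun σ => Units.mul_inv _
  -- the quadratic relation at Frobenius elements
  have hquad : ∀ (ℓ : ℕ) (hℓ : ℓ.Prime), ¬ ℓ ∣ N * p →
      ∀ B : ValuationSubring Qb, B.LiesOverPrime ℓ → ∀ σ : GQ, B.IsFrobeniusAt σ ℓ →
        ((c σ : O₂ˣ) : O₂) * (c σ : O₂ˣ) - algebraMap O O₂ (a ⟨ℓ, hℓ⟩) * (c σ : O₂ˣ)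
          + (ℓ : O₂) = 0 ∧ ((χ₂ σ : O₂ˣ) : O₂) = (ℓ : O₂) := by
    intro ℓ hℓ h B hB σ hσ
    refine ⟨?_, chiAdic_of_isFrobeniusAt _ hp₂ hℓ (ne_of_not_dvd' h) hB hσ⟩
    have := hrel σ (a ⟨ℓ, hℓ⟩) (ℓ : O) (P.frob ℓ hℓ h B hB σ hσ)
    rwa [map_natCast] at this
  refine ⟨{ M := diagHom d₁ d₂, continuous := ?_, unram := ?_, frob := ?_ }, ?_, ?_⟩
  · -- continuity
    intro n
    obtain ⟨L₀, hfd, hL₀⟩ := P.continuous n
    haveI := hfd
    refine ⟨L₀ ⊔ cycloFieldPow p n, IntermediateField.finiteDimensional_sup _ _,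
      fun σ hσ => ?_⟩
    have h1 : ((c σ : O₂ˣ) : O₂) - 1 ∈ maximalIdeal O₂ ^ n :=
      hcont n σ fun i j => hL₀ σ (fun x hx => hσ x (le_sup_left (a := L₀) hx)) i j
    have h2 : ((χ₂ σ : O₂ˣ) : O₂) - 1 ∈ maximalIdeal O₂ ^ n :=
      chiAdic_sub_one_mem _ hp₂ fun x hx => hσ x (le_sup_right (b := cycloFieldPow p n) hx)
    have h3 : (((χ₂ / c) σ : O₂ˣ) : O₂) - 1 ∈ maximalIdeal O₂ ^ n := by
      rw [MonoidHom.div_apply]
      exact (congSub (maximalIdeal O₂ ^ n)).div_mem (mem_congSub.mpr h2) (mem_congSub.mpr h1)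
    intro i j
    rw [diagHom_apply]
    fin_cases i <;> fin_cases j
    · simpa [hd₁a] using h1
    · simp
    · simp
    · simpa [hd₂] using h3
  · -- unramifiedness
    intro ℓ hℓ h B hB σ hσ
    have h1 : c σ = 1 := htriv σ (P.unram ℓ hℓ h B hB σ hσ)
    have h2 : χ₂ σ = 1 := chiAdic_of_mem_inertia _ hp₂ hℓ (ne_of_not_dvd' h) hB hσ
    rw [diagHom_apply, hd₁a, hd₂a, h1, h2]
    ext i j
    fin_cases i <;> fin_cases j <;> simp
  · -- the quadratic relation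
    intro ℓ hℓ h B hB σ hσ
    obtain ⟨hq, hχ⟩ := hquad ℓ hℓ h B hB σ hσ
    have hu := huw σ
    rw [diagHom_apply, hd₁a, hd₂a, hχ]
    set u : O₂ := ((c σ : O₂ˣ) : O₂)
    set w : O₂ := (((c σ)⁻¹ : O₂ˣ) : O₂)
    set a' : O₂ := algebraMap O O₂ (a ⟨ℓ, hℓ⟩)
    ext i j
    fin_cases i <;> fin_cases j
    · simp
      linear_combination hq
    · simp
    · simp
    · simp
      linear_combination ((ℓ : O₂) * w ^ 2) * hq - ((ℓ : O₂) * (1 + u * w) - a' * (ℓ : O₂) * w) * hu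
  · -- all Frobenius elements are good
    intro ℓ hℓ h B hB σ hσ
    obtain ⟨hq, hχ⟩ := hquad ℓ hℓ h B hB σ hσ
    have hu := huw σ
    show (diagHom d₁ d₂ σ).trace = algebraMap O O₂ (a ⟨ℓ, hℓ⟩) ∧ (diagHom d₁ d₂ σ).det = (ℓ : O₂)
    rw [diagHom_apply, hd₁a, hd₂a, hχ, Matrix.trace_fin_two, Matrix.det_fin_two]
    set u : O₂ := ((c σ : O₂ˣ) : O₂)
    set w : O₂ := (((c σ)⁻¹ : O₂ˣ) : O₂)
    set a' : O₂ := algebraMap O O₂ (a ⟨ℓ, hℓ⟩)
    constructor
    · simp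
      linear_combination w * hq - (u - a') * hu
    · simp
      linear_combination (ℓ : O₂) * hu
  · -- the Frobenius-new clause, entrywise
    intro q hq hqp hqN hq2 B hB σ hσ
    show (diagHom d₁ d₂ σ * diagHom d₁ d₂ σ - 1) *
      (diagHom d₁ d₂ σ * diagHom d₁ d₂ σ - ((q : O₂) ^ 2) • (1 : Matrix (Fin 2) (Fin 2) O₂)) = 0
    have h0 := hPF q hq hqp hqN hq2 B hB σ hσ
    have h0' : P.M (σ * σ) * P.M (σ * σ) - ((1 : O) + (q : O) ^ 2) • P.M (σ * σ)
        + ((q : O) ^ 2) • (1 : Matrix (Fin 2) (Fin 2) O) = 0 := by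
      rw [map_mul, ← h0, sub_mul, mul_sub, mul_sub, mul_smul_comm, mul_smul_comm, mul_one, one_mul,
        one_mul, add_smul, one_smul]
      abel
    have h1 := hrel (σ * σ) ((1 : O) + (q : O) ^ 2) ((q : O) ^ 2) h0'
    rw [map_mul, Units.val_mul, map_add, map_one, map_pow, map_natCast] at h1
    have hχ : ((χ₂ σ : O₂ˣ) : O₂) = (q : O₂) := chiAdic_of_isFrobeniusAt _ hp₂ hq hqp hB hσ
    have hu := huw σ
    rw [diagHom_apply, hd₁a, hd₂a, hχ]
    set u : O₂ := ((c σ : O₂ˣ) : O₂)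
    set w : O₂ := (((c σ)⁻¹ : O₂ˣ) : O₂)
    have h2 : (u ^ 2 - 1) * (u ^ 2 - (q : O₂) ^ 2) = 0 := by linear_combination h1
    have hw2 : w ^ 2 * u ^ 2 = 1 := by
      have : w ^ 2 * u ^ 2 = (u * w) ^ 2 := by ring
      rw [this, hu, one_pow]
    have h3 : (((q : O₂) * w) ^ 2 - 1) * (((q : O₂) * w) ^ 2 - (q : O₂) ^ 2) = 0 := by
      have e1 : ((q : O₂) * w) ^ 2 - 1 = w ^ 2 * ((q : O₂) ^ 2 - u ^ 2) := by
        linear_combination hw2
      have e2 : ((q : O₂) * w) ^ 2 - (q : O₂) ^ 2 = (q : O₂) ^ 2 * (w ^ 2 * (1 - u ^ 2)) := by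
        linear_combination ((q : O₂) ^ 2) * hw2
      rw [e1, e2]
      linear_combination ((q : O₂) ^ 2 * w ^ 4) * h2
    exact diagonal_frobNew u ((q : O₂) * w) ((q : O₂) ^ 2) h2 h3

end Bad

/-! ### The adic block X with the Frobenius-new clause -/

section Final

variable {N p : ℕ} [hpf : Fact p.Prime]

/-- **Adic block X with the Frobenius-new clause** (explicit form). -/
theorem exists_galoisRepAdic_of_adicPiece_fn (hN : N ≠ 0) (O : Type) [CommRing O] [IsDomain O]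
    [IsDiscreteValuationRing O] [IsAdicComplete (maximalIdeal O) O] [Finite (ResidueField O)]
    [CharZero O] (hpO : (p : O) ∈ maximalIdeal O) (a : Nat.Primes → O) (P : AdicPiece N p O a)
    (hPF : IsFrobNewPiece P) :
    ∃ (O₂ : Type) (_ : CommRing O₂) (_ : IsDomain O₂) (_ : IsDiscreteValuationRing O₂)
      (_ : IsAdicComplete (maximalIdeal O₂) O₂) (_ : Finite (ResidueField O₂)) (_ : CharZero O₂)
      (_ : Algebra O O₂) (_ : Module.Finite O O₂) (_ : IsLocalHom (algebraMap O O₂)),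
      Function.Injective (algebraMap O O₂) ∧
      ∃ ρ : GaloisRepAdic O₂,
        (∀ (ℓ : ℕ) (hℓ : ℓ.Prime), ¬ ℓ ∣ N * p →
          ∀ B : ValuationSubring (AlgebraicClosure ℚ), B.LiesOverPrime ℓ →
            ∀ σ : AlgebraicClosure ℚ ≃ₐ[ℚ] AlgebraicClosure ℚ, B.IsFrobeniusAt σ ℓ →
              LinearMap.charpoly (ρ.ρ σ) =
                X ^ 2 - C (algebraMap O O₂ (a ⟨ℓ, hℓ⟩)) * X + C ((ℓ : O₂))) ∧
        (∀ ℓ : ℕ, ℓ.Prime → ¬ ℓ ∣ N * p → ρ.IsUnramifiedAt ℓ) ∧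
        IsFrobNewRep N p ρ := by
  classical
  by_cases hgood : P.IsGood
  · refine ⟨O, inferInstance, inferInstance, inferInstance, inferInstance, inferInstance,
      inferInstance, Algebra.id O, inferInstance, ?_, Function.injective_id, P.toRep, ?_⟩
    · exact isLocalHom_id O
    · have h := P.isAttachedAdic_of_isGood hgood
      exact ⟨h.1, h.2, toRep_isFrobNewRep P hPF⟩
  · unfold AdicPiece.IsGood at hgood
    push Not at hgood
    obtain ⟨ℓ₀, hℓ₀, h₀, A₀, hA₀, σ₀, hσ₀, hbad⟩ := hgood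
    have hcomm := commute_of_bad hpO P hN hℓ₀ h₀ hA₀ hσ₀
      (fun hh => absurd hh.2 (hbad hh.1))
    obtain ⟨O₂, i1, i2, i3, i4, i5, i6, i7, i8, i9, hinj, P₂, hP₂, hP₂F⟩ :=
      exists_good_piece_of_commute_fn hpO P hPF hcomm
    have h := P₂.isAttachedAdic_of_isGood hP₂
    exact ⟨O₂, i1, i2, i3, i4, i5, i6, i7, i8, i9, hinj, P₂.toRep, h.1, h.2,
      toRep_isFrobNewRep P₂ hP₂F⟩

end Final

end Fermat.Agent.S35lib
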