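/-
S35lib / R3 (lead), step 5: **eigen data for `g` ITSELF** (variant of `S30.exists_eigen_data`).
In S30 the character `χ` of the Hecke algebra away from `S` is extended to SOME point of the full
Hecke algebra, i.e. to some eigenform `g'` with the same eigenvalues outside `S`.  For S35 the
eigenlattice has to be cut out by the eigenvalues of the given form `g` at ALL primes (the Hecke
killer of brick R2 involves every prime `ℓ ∤ N`, also those in `S`).  Here: `χ = ι ∘ χ_g` with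
`χ_g (T_ℓ) = a_ℓ(g)`; the ring `A = χ_g(𝕋^S) ⊂ ℂ` is contained in `B = ℤ[a_ℓ(g) : ℓ] ⊂ ℂ`, finite
over `ℤ`, and `ι : A → 𝒪'` extends to an injective `θ : B → O_{K₁}` (`S30.exists_extension`).
-/
import Fermat.Agent.S29lib.S30.EigenData
import Fermat.Agent.S35lib.KillInterface

set_option autoImplicit false
set_option linter.style.haveILetI false

noncomputable section

namespace Fermat.Agent.S35lib

open CuspForm ModularFormClass CongruenceSubgroup Fermat.Agent.S29lib Fermat.Agent.S29lib.Dvr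
  Fermat.Agent.S29lib.P Fermat.Agent.S29lib.S30 Matrix

/-- evaluation of noncommutative polynomials commutes with ring homs of commutative rings -/
lemma lift_ringHom {I R S : Type*} [CommRing R] [CommRing S] (φ : R →+* S) (a : I → R)
    (P : FreeAlgebra ℤ I) :
    φ (FreeAlgebra.lift ℤ a P) = FreeAlgebra.lift ℤ (fun i => φ (a i)) P := by
  induction P using FreeAlgebra.induction with
  | grade0 n => rw [AlgHom.commutes, AlgHom.commutes, eq_intCast, eq_intCast, map_intCast]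
  | grade1 i => rw [FreeAlgebra.lift_ι_apply, FreeAlgebra.lift_ι_apply]
  | add P Q hP hQ => rw [map_add, map_add, map_add, hP, hQ]
  | mul P Q hP hQ => rw [map_mul, map_mul, map_mul, hP, hQ]

variable {N : ℕ} [NeZero N]

/-- the character `χ_g` of the Hecke algebra away from `S` is the restriction of the eigencharacter
of `g` on the full Hecke algebra (all primes dividing `N` lie in `S`). -/
lemma chig_eq_eigenChar {g : CuspForm (Gamma0 N) 2} (hg : g.IsNormalizedEigenform) (S : Set ℕ)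
    (hNS : ∀ q : ℕ, q.Prime → q ∣ N → q ∈ S)
    (chig : CuspForm.heckeAlgebra N 2 S →+* ℂ)
    (hchig : ∀ (ℓ : ℕ) (hℓ : ℓ.Prime) (hℓN : ¬ ℓ ∣ N) (hℓS : ℓ ∉ S),
      chig (CuspForm.heckeAlgebra.T hℓ hℓN hℓS) = qCoeff g ℓ)
    (t : CuspForm.heckeAlgebra N 2 S) :
    chig t = ((eigenChar hg
      (Subalgebra.inclusion (CuspForm.heckeAlgebra_mono (Set.empty_subset S)) t) :
        integralClosure ℤ ℂ) : ℂ) := by
  obtain ⟨T, hT⟩ := t
  induction hT using Algebra.adjoin_induction with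
  | mem T hT =>
    rcases hT with ⟨ℓ, hℓ, hℓN, hℓS, rfl⟩ | ⟨q, hqN, hq, hqS, rfl⟩
    · have h1 := hchig ℓ hℓ hℓN hℓS
      have h2 := eigenChar_heckeAllT hg ⟨ℓ, hℓ⟩
      have h3 : heckeAllT (N := N) ⟨ℓ, hℓ⟩ =
          CuspForm.heckeAlgebra.T hℓ hℓN (Set.notMem_empty _) := by
        unfold heckeAllT
        rw [dif_neg hℓN]
      rw [h3] at h2
      refine h1.trans ?_
      have h4 := congrArg (fun z : integralClosure ℤ ℂ => (z : ℂ)) h2
      exact h4.symm
    · exact absurd (hNS q hq hqN) hqS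
  | algebraMap r =>
    have h1 : (⟨algebraMap ℤ _ r, Subalgebra.algebraMap_mem _ r⟩ : CuspForm.heckeAlgebra N 2 S) =
        algebraMap ℤ (CuspForm.heckeAlgebra N 2 S) r := rfl
    rw [h1, AlgHom.commutes, eq_intCast, eq_intCast, map_intCast, map_intCast]
    rfl
  | add x y hx hy ihx ihy =>
    have h1 : (⟨x + y, add_mem hx hy⟩ : CuspForm.heckeAlgebra N 2 S) = ⟨x, hx⟩ + ⟨y, hy⟩ := rfl
    rw [h1, map_add, map_add, map_add, ihx, ihy]
    rfl
  | mul x y hx hy ihx ihy =>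
    have h1 : (⟨x * y, mul_mem hx hy⟩ : CuspForm.heckeAlgebra N 2 S) = ⟨x, hx⟩ * ⟨y, hy⟩ := rfl
    rw [h1, map_mul, map_mul, map_mul, ihx, ihy]
    rfl

/-- **Eigen data for `g` itself.** -/
theorem exists_eigen_data_of_eigenform {p : ℕ} (C : ComparisonData N p)
    {g : CuspForm (Gamma0 N) 2} (hg : g.IsNormalizedEigenform) (EI : EigenInput C g)
    (S : Set ℕ) (hNS : ∀ q : ℕ, q.Prime → q ∣ N → q ∈ S)
    (𝒪' : Type) [CommRing 𝒪'] [IsDomain 𝒪'] [CharZero 𝒪']
    (chig : CuspForm.heckeAlgebra N 2 S →+* ℂ)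
    (hchig : ∀ (ℓ : ℕ) (hℓ : ℓ.Prime) (hℓN : ¬ ℓ ∣ N) (hℓS : ℓ ∉ S),
      chig (CuspForm.heckeAlgebra.T hℓ hℓN hℓS) = qCoeff g ℓ)
    (iota : chig.range →+* 𝒪') :
    ∃ (K₁ : IntermediateField (FractionRing 𝒪') (AlgebraicClosure (FractionRing 𝒪')))
      (_ : FiniteDimensional (FractionRing 𝒪') K₁) (a₁ : Nat.Primes → OL 𝒪' K₁),
      Module.finrank K₁ ↥(⨅ ℓ : Nat.Primes, LinearMap.ker
        (Matrix.toLin' ((C.t ℓ).map (Int.cast : ℤ → K₁)) -
          (algebraMap (OL 𝒪' K₁) K₁ (a₁ ℓ)) • 1)) = 2 ∧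
      (∀ (ℓ : ℕ) (hℓ : ℓ.Prime) (hℓN : ¬ ℓ ∣ N) (hℓS : ℓ ∉ S),
        a₁ ⟨ℓ, hℓ⟩ = algebraMap 𝒪' (OL 𝒪' K₁)
          (iota (chig.rangeRestrict (CuspForm.heckeAlgebra.T hℓ hℓN hℓS)))) ∧
      (∀ P : FreeAlgebra ℤ Nat.Primes, coeffEval g P ≠ 0 → FreeAlgebra.lift ℤ a₁ P ≠ 0) := by
  classical
  haveI : Module.Finite ℤ (CuspForm.heckeAlgebra N 2 (∅ : Set ℕ)) := Fermat.Agent.S22.result N 2 ∅
  -- the ring `B = ℤ[a_ℓ(g)] ⊂ ℂ`
  let f : CuspForm.heckeAlgebra N 2 (∅ : Set ℕ) →+* ℂ :=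
    (algebraMap (integralClosure ℤ ℂ) ℂ).comp (eigenChar hg)
  let B : Subring ℂ := f.range
  haveI : Module.Finite ℤ B :=
    Module.Finite.of_surjective f.rangeRestrict.toAddMonoidHom.toIntLinearMap
      f.rangeRestrict_surjective
  have hAB : chig.range ≤ B := by
    rintro _ ⟨t, rfl⟩
    exact ⟨_, (chig_eq_eigenChar hg S hNS chig hchig t).symm⟩
  let ι : chig.range →+* B := Subring.inclusion hAB
  have hι : Function.Injective ι := Subring.inclusion_injective hAB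
  obtain ⟨K₁, hfd, θ, hθ⟩ := exists_extension ι hι 𝒪' iota
  -- `O_{K₁}` has characteristic zero
  have hinj : Function.Injective (algebraMap 𝒪' (OL 𝒪' K₁)) := by
    intro x y hxy
    have h1 := congrArg (fun z : OL 𝒪' K₁ => ((z : K₁) : AlgebraicClosure (FractionRing 𝒪'))) hxy
    have h2 : Function.Injective
        (algebraMap 𝒪' (AlgebraicClosure (FractionRing 𝒪'))) := by
      rw [IsScalarTower.algebraMap_eq 𝒪' (FractionRing 𝒪') (AlgebraicClosure (FractionRing 𝒪'))]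
      exact (algebraMap (FractionRing 𝒪') (AlgebraicClosure (FractionRing 𝒪'))).injective.comp
        (IsFractionRing.injective 𝒪' (FractionRing 𝒪'))
    exact h2 h1
  haveI : CharZero (OL 𝒪' K₁) := charZero_of_injective_algebraMap hinj
  -- `θ` is injective
  have hθinj : Function.Injective θ := by
    rw [RingHom.injective_iff_ker_eq_bot]
    haveI : Algebra.IsIntegral ℤ B := inferInstance
    apply Ideal.eq_bot_of_comap_eq_bot (R := ℤ)
    rw [eq_bot_iff]
    intro n hn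
    rw [Ideal.mem_comap, RingHom.mem_ker, eq_intCast, map_intCast, Int.cast_eq_zero] at hn
    rw [hn]
    exact Ideal.zero_mem _
  -- the eigenvalues
  let b : Nat.Primes → B := fun ℓ => ⟨qCoeff g (ℓ : ℕ), heckeAllT ℓ, by
    show ((eigenChar hg (heckeAllT ℓ) : integralClosure ℤ ℂ) : ℂ) = qCoeff g (ℓ : ℕ)
    rw [eigenChar_heckeAllT]
    rfl⟩
  have hb : ∀ ℓ, ((b ℓ : B) : ℂ) = qCoeff g (ℓ : ℕ) := fun _ => rfl
  refine ⟨K₁, hfd, fun ℓ => θ (b ℓ), ?_, ?_, ?_⟩
  · have hinj' : Function.Injective ((algebraMap (OL 𝒪' K₁) K₁).comp θ) :=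
      (Subtype.val_injective).comp hθinj
    have key := finrank_eigen_transfer C.t b B.subtype ((algebraMap (OL 𝒪' K₁) K₁).comp θ)
      Subtype.val_injective hinj'
    have hfin := EI.finrank_eigen
    have hrw : (⨅ ℓ : Nat.Primes, LinearMap.ker
        (Matrix.toLin' ((C.t ℓ).map (Int.cast : ℤ → ℂ)) - B.subtype (b ℓ) • 1)) =
        ⨅ ℓ : Nat.Primes, LinearMap.ker
        (Matrix.toLin' ((C.t ℓ).map (Int.cast : ℤ → ℂ)) -
          ((EI.a ℓ : integralClosure ℤ ℂ) : ℂ) • 1) := by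
      congr 1; funext ℓ; rw [EI.a_eq]; rfl
    rw [hrw, hfin] at key
    exact key.symm
  · intro ℓ hℓ hℓN hℓS
    have h1 : b ⟨ℓ, hℓ⟩ = ι (chig.rangeRestrict (CuspForm.heckeAlgebra.T hℓ hℓN hℓS)) := by
      apply Subtype.ext
      exact (hchig ℓ hℓ hℓN hℓS).symm
    show θ (b ⟨ℓ, hℓ⟩) = _
    rw [h1, hθ]
  · intro P hP
    have h1 : coeffEval g P = B.subtype (FreeAlgebra.lift ℤ b P) := by
      rw [lift_ringHom]
      rfl
    have h2 : FreeAlgebra.lift ℤ b P ≠ 0 := by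
      intro h0
      apply hP
      rw [h1, h0, map_zero]
    have h3 : FreeAlgebra.lift ℤ (fun ℓ => θ (b ℓ)) P = θ (FreeAlgebra.lift ℤ b P) :=
      (lift_ringHom θ b P).symm
    rw [h3]
    exact fun h0 => h2 (hθinj (h0.trans (map_zero θ).symm))

end Fermat.Agent.S35lib
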