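/-
S35lib / R3 (lead), step 3: the adic lattice of S30 (Galois form and matrix form), with the
**Frobenius-new clause** at the primes `q ∥ N`, `q ≠ p`: every Frobenius lift `σ` at `q` satisfies
`(ρ(σ)² - 1)(ρ(σ)² - q²) = 0`.  Input: `FrobKillTors N p g` (interface (KILL)) and the compatibility
of the eigenvalues `a` with the `q`-expansion coefficients of `g`.
-/
import Fermat.Agent.S29lib.S30.AdicMatrix
import Fermat.Agent.S35lib.KillInterface
import Fermat.Agent.S35lib.R3.Lattice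

set_option autoImplicit false

noncomputable section

namespace Fermat.Agent.S35lib

open ModularCurve Matrix Fermat.Agent.S29lib Fermat.Agent.S29lib.E Fermat.Agent.S29lib.S30

/-- `ℚ̄` -/
local notation "Qb" => AlgebraicClosure ℚ
/-- `G_ℚ` -/
local notation "GQ" => (AlgebraicClosure ℚ ≃ₐ[ℚ] AlgebraicClosure ℚ)

variable {N p : ℕ} [NeZero N]

lemma heckeEval_mem_Tors (TJ : Nat.Primes → (JZero N →+ JZero N)) (P : FreeAlgebra ℤ Nat.Primes)
    {n : ℕ} {x : JZero N} (hx : x ∈ Tors N n) : heckeEval TJ P x ∈ Tors N n :=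
  map_mem_Tors (heckeEval TJ P).toAddMonoidHom hx

/-- the Kummer comparison intertwines `P(T)` on the torsion with the matrix `P(t)` -/
lemma κ_heckeEval (C : ComparisonData N p) (k : ℕ) (P : FreeAlgebra ℤ Nat.Primes) :
    ∀ x y : Tors N (p ^ k), (y : JZero N) = heckeEval C.TJ P (x : JZero N) →
      C.κ k y = killMatR (torsionSystemOf C) (ZMod (p ^ k)) P *ᵥ C.κ k x := by
  induction P using FreeAlgebra.induction with
  | grade0 n =>
    intro x y hy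
    have h1 : y = n • x := by
      apply Subtype.ext
      rw [hy, AlgHom.commutes, Algebra.algebraMap_eq_smul_one, LinearMap.smul_apply,
        Module.End.one_apply]
      rfl
    rw [h1, map_zsmul, AlgHom.commutes, Algebra.algebraMap_eq_smul_one, Matrix.smul_mulVec,
      Matrix.one_mulVec]
  | grade1 ℓ =>
    intro x y hy
    have h1 : y = ⟨C.TJ ℓ x, map_mem_Tors (C.TJ ℓ) x.2⟩ := by
      apply Subtype.ext
      rw [hy, heckeEval, FreeAlgebra.lift_ι_apply]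
      rfl
    rw [h1, killMatR, FreeAlgebra.lift_ι_apply]
    exact C.κ_hecke k ℓ x
  | add P Q hP hQ =>
    intro x y hy
    set yP : Tors N (p ^ k) := ⟨heckeEval C.TJ P x, heckeEval_mem_Tors C.TJ P x.2⟩ with hyP
    set yQ : Tors N (p ^ k) := ⟨heckeEval C.TJ Q x, heckeEval_mem_Tors C.TJ Q x.2⟩ with hyQ
    have h1 : y = yP + yQ := by
      apply Subtype.ext
      rw [hy, map_add, LinearMap.add_apply]
      rfl
    rw [h1, map_add, hP x yP rfl, hQ x yQ rfl, map_add, Matrix.add_mulVec]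
  | mul P Q hP hQ =>
    intro x y hy
    set yQ : Tors N (p ^ k) := ⟨heckeEval C.TJ Q x, heckeEval_mem_Tors C.TJ Q x.2⟩ with hyQ
    have h1 : (y : JZero N) = heckeEval C.TJ P (yQ : JZero N) := by
      rw [hy, map_mul, Module.End.mul_apply]
    rw [hP yQ y h1, hQ x yQ rfl, map_mul, Matrix.mulVec_mulVec]

/-- `(X - 1)(X - b) = 0` from `X² - (1 + b) X + b = 0` in an algebra. -/
lemma sub_one_mul_sub_eq_zero {O E : Type*} [CommRing O] [Ring E] [Algebra O E] (X : E) (q : ℕ)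
    (h : X * X - (((1 : ℤ) + (q : ℤ) ^ 2 : ℤ) : O) • X + (((q : ℤ) ^ 2 : ℤ) : O) • (1 : E) = 0) :
    (X - 1) * (X - ((q : O) ^ 2) • (1 : E)) = 0 := by
  rw [← h]
  push_cast
  rw [sub_mul, mul_sub, mul_sub, mul_smul_comm, mul_smul_comm, mul_one, one_mul, one_mul, add_smul,
    one_smul]
  abel

/-- **S30 brick (C), Galois form, with the Frobenius-new clause.** -/
theorem exists_adic_galois_fn (C : ComparisonData N p) (LD : LocalData N p)
    {g : CuspForm (CongruenceSubgroup.Gamma0 N) 2} (hK : FrobKillTors N p g)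
    (O : Type) [CommRing O] [IsDomain O] [IsDiscreteValuationRing O] [CharZero O]
    [IsAdicComplete (IsLocalRing.maximalIdeal O) O] (hpO : (p : O) ∈ IsLocalRing.maximalIdeal O)
    (a : Nat.Primes → O)
    (ha : ∀ P : FreeAlgebra ℤ Nat.Primes, coeffEval g P ≠ 0 → FreeAlgebra.lift ℤ a P ≠ 0)
    {L : Type} [Field L] (emb : O →+* L) (hemb : Function.Injective emb)
    (hfin : Module.finrank L ↥(⨅ ℓ : Nat.Primes, LinearMap.ker
      (Matrix.toLin' ((C.t ℓ).map (Int.cast : ℤ → L)) - emb (a ℓ) • 1)) = 2) :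
    ∃ (V : Submodule O (Fin C.r → O)) (ρ : GQ →* Module.End O V),
      Module.Free O V ∧ Module.Finite O V ∧ Module.finrank O V = 2 ∧
      GaloisActionIsAdicContinuous O ρ ∧
      (∀ ℓ : ℕ, ℓ.Prime → ¬ ℓ ∣ N * p →
        ∀ A : ValuationSubring Qb, A.LiesOverPrime ℓ → ∀ σ ∈ A.inertiaSubgroupIn ℚ, ρ σ = 1) ∧
      (∀ (ℓ : ℕ) (hℓ : ℓ.Prime), ¬ ℓ ∣ N * p →
        ∀ A : ValuationSubring Qb, A.LiesOverPrime ℓ → ∀ σ : GQ, A.IsFrobeniusAt σ ℓ →
          ρ σ * ρ σ - a ⟨ℓ, hℓ⟩ • ρ σ + (ℓ : O) • (1 : Module.End O V) = 0) ∧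
      (∀ q : ℕ, q.Prime → q ≠ p → q ∣ N → ¬ q ^ 2 ∣ N →
        ∀ A : ValuationSubring Qb, A.LiesOverPrime q → ∀ σ : GQ, A.IsFrobeniusAt σ q →
          (ρ σ * ρ σ - 1) * (ρ σ * ρ σ - ((q : O) ^ 2) • (1 : Module.End O V)) = 0) := by
  obtain ⟨V, ρ, hfree, hfinite, hrank, hcont, hfix, hfrob, hkill⟩ :=
    exists_adic_lattice_fn (torsionSystemOf C) O hpO a emb hemb hfin
  refine ⟨V, ρ, hfree, hfinite, hrank, ?_, ?_, ?_, ?_⟩
  · intro n
    obtain ⟨L', hL', hLfix⟩ := LD.finiteLevel n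
    exact ⟨L', hL', fun σ hσ v => hcont n σ
      (fun (x : Tors N (p ^ n)) => Subtype.ext (hLfix σ hσ (x : JZero N) x.2)) v⟩
  · intro ℓ hℓ hℓNp A hA σ hσ
    exact hfix σ (fun k (x : Tors N (p ^ k)) =>
      Subtype.ext (LD.unram ℓ hℓ hℓNp A hA σ hσ k (x : JZero N) x.2))
  · intro ℓ hℓ hℓNp A hA σ hσ
    refine hfrob σ ⟨ℓ, hℓ⟩ ℓ (fun k (x : Tors N (p ^ k)) => ?_)
    apply frob_tors C k σ ⟨ℓ, hℓ⟩ x
    have h1 := LD.frob ℓ hℓ hℓNp A hA σ hσ k (x : JZero N) x.2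
    have hN : ¬ ℓ ∣ N := fun h => hℓNp (dvd_mul_of_dvd_left h p)
    rw [C.TJ_good ⟨ℓ, hℓ⟩ hN, ← natCast_zsmul]
    exact h1
  · intro q hq hqp hqN hq2 A hA σ hσ
    obtain ⟨c, P, hc, hP, hrel⟩ := hK q hq hqp hqN hq2
    have hne : (c : O) * FreeAlgebra.lift ℤ a P ≠ 0 :=
      mul_ne_zero (Int.cast_ne_zero.mpr hc) (ha P hP)
    have h1 := hkill (σ * σ) c ((1 : ℤ) + (q : ℤ) ^ 2) ((q : ℤ) ^ 2) P hne
      (fun k (x : Tors N (p ^ k)) => by
        refine ⟨⟨heckeEval C.TJ P x, heckeEval_mem_Tors C.TJ P x.2⟩,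
          κ_heckeEval C k P x _ rfl, ?_⟩
        apply Subtype.ext
        exact hrel C.TJ C.TJ_good A hA σ hσ k (x : JZero N) x.2)
    rw [map_mul] at h1
    exact sub_one_mul_sub_eq_zero (ρ σ * ρ σ) q h1

/-- **S30 brick (C), matrix form, with the Frobenius-new clause.** -/
theorem exists_adic_matrix_fn (C : ComparisonData N p) (LD : LocalData N p)
    {g : CuspForm (CongruenceSubgroup.Gamma0 N) 2} (hK : FrobKillTors N p g)
    (O : Type) [CommRing O] [IsDomain O] [IsDiscreteValuationRing O] [CharZero O]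
    [IsAdicComplete (IsLocalRing.maximalIdeal O) O] (hpO : (p : O) ∈ IsLocalRing.maximalIdeal O)
    (a : Nat.Primes → O)
    (ha : ∀ P : FreeAlgebra ℤ Nat.Primes, coeffEval g P ≠ 0 → FreeAlgebra.lift ℤ a P ≠ 0)
    {L : Type} [Field L] (emb : O →+* L) (hemb : Function.Injective emb)
    (hfin : Module.finrank L ↥(⨅ ℓ : Nat.Primes, LinearMap.ker
      (Matrix.toLin' ((C.t ℓ).map (Int.cast : ℤ → L)) - emb (a ℓ) • 1)) = 2) :
    ∃ M : GQ →* Matrix (Fin 2) (Fin 2) O,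
      (∀ n : ℕ, ∃ L' : IntermediateField ℚ Qb, FiniteDimensional ℚ L' ∧
        ∀ σ : GQ, (∀ x ∈ L', σ x = x) →
          ∀ i j, (M σ - 1) i j ∈ IsLocalRing.maximalIdeal O ^ n) ∧
      (∀ ℓ : ℕ, ℓ.Prime → ¬ ℓ ∣ N * p →
        ∀ A : ValuationSubring Qb, A.LiesOverPrime ℓ → ∀ σ ∈ A.inertiaSubgroupIn ℚ, M σ = 1) ∧
      (∀ (ℓ : ℕ) (hℓ : ℓ.Prime), ¬ ℓ ∣ N * p →
        ∀ A : ValuationSubring Qb, A.LiesOverPrime ℓ → ∀ σ : GQ, A.IsFrobeniusAt σ ℓ →
          M σ * M σ - a ⟨ℓ, hℓ⟩ • M σ + (ℓ : O) • (1 : Matrix (Fin 2) (Fin 2) O) = 0) ∧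
      (∀ q : ℕ, q.Prime → q ≠ p → q ∣ N → ¬ q ^ 2 ∣ N →
        ∀ A : ValuationSubring Qb, A.LiesOverPrime q → ∀ σ : GQ, A.IsFrobeniusAt σ q →
          (M σ * M σ - 1) * (M σ * M σ - ((q : O) ^ 2) • (1 : Matrix (Fin 2) (Fin 2) O)) = 0) := by
  obtain ⟨V, ρ, hfree, hfinite, hrank, hcont, hunram, hfrob, hfn⟩ :=
    exists_adic_galois_fn C LD hK O hpO a ha emb hemb hfin
  let b : Module.Basis (Fin 2) O V := Module.finBasisOfFinrankEq O V hrank
  let Φ : Module.End O V ≃ₐ[O] Matrix (Fin 2) (Fin 2) O := LinearMap.toMatrixAlgEquiv b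
  let M : GQ →* Matrix (Fin 2) (Fin 2) O := (Φ : Module.End O V →* Matrix (Fin 2) (Fin 2) O).comp ρ
  have hM : ∀ σ, M σ = Φ (ρ σ) := fun σ => rfl
  refine ⟨M, ?_, ?_, ?_, ?_⟩
  · intro n
    obtain ⟨L', hL', hL'fix⟩ := hcont n
    refine ⟨L', hL', fun σ hσ i j => ?_⟩
    have h1 : (M σ - 1) i j = b.repr (ρ σ (b j) - b j) i := by
      rw [hM, ← map_one Φ, ← map_sub]
      show LinearMap.toMatrixAlgEquiv b (ρ σ - 1) i j = _
      rw [LinearMap.toMatrixAlgEquiv_apply, LinearMap.sub_apply, Module.End.one_apply]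
    rw [h1]
    exact repr_mem_of_mem_smul_top b _ (hL'fix σ hσ (b j)) i
  · intro ℓ hℓ hℓNp A hA σ hσ
    rw [hM, hunram ℓ hℓ hℓNp A hA σ hσ, map_one]
  · intro ℓ hℓ hℓNp A hA σ hσ
    have h0 := hfrob ℓ hℓ hℓNp A hA σ hσ
    rw [hM]
    generalize a ⟨ℓ, hℓ⟩ = c at h0 ⊢
    have h1 : Φ (ρ σ * ρ σ - c • ρ σ + (ℓ : O) • 1) = 0 := by rw [h0, map_zero]
    have e1 := map_add Φ (ρ σ * ρ σ - c • ρ σ) ((ℓ : O) • 1)
    have e2 := map_sub Φ (ρ σ * ρ σ) (c • ρ σ)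
    have e3 := map_mul Φ (ρ σ) (ρ σ)
    have e4 := map_smul Φ c (ρ σ)
    have e5 := map_smul Φ (ℓ : O) (1 : Module.End O V)
    have e6 := map_one Φ
    rw [e1, e2, e3, e4, e5, e6] at h1
    exact h1
  · intro q hq hqp hqN hq2 A hA σ hσ
    have h0 := hfn q hq hqp hqN hq2 A hA σ hσ
    have h1 : Φ ((ρ σ * ρ σ - 1) * (ρ σ * ρ σ - ((q : O) ^ 2) • (1 : Module.End O V))) = 0 := by
      rw [h0, map_zero]
    have e1 := map_mul Φ (ρ σ * ρ σ - 1) (ρ σ * ρ σ - ((q : O) ^ 2) • (1 : Module.End O V))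
    have e2 := map_sub Φ (ρ σ * ρ σ) 1
    have e3 := map_sub Φ (ρ σ * ρ σ) (((q : O) ^ 2) • (1 : Module.End O V))
    have e4 := map_mul Φ (ρ σ) (ρ σ)
    have e5 := map_smul Φ ((q : O) ^ 2) (1 : Module.End O V)
    have e6 := map_one Φ
    rw [e1, e2, e3, e4, e5, e6] at h1
    rw [hM]
    exact h1

end Fermat.Agent.S35lib
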