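/-
S35lib / R3 (lead), step 6: **S30 for a newform `g` itself, with the Frobenius-new clause**.  Copy of
`S30.s30_of_blocks` / `S34lib.s30_unip` with
* the eigenlattice cut out by the eigenvalues of `g` at all primes (`exists_eigen_data_of_eigenform`),
* the `_fn` bricks (input: `FrobKillTors N p g`, interface (KILL)),
* the last step: `(ρ(σ)² - 1)(ρ(σ)² - q²) = 0` and `det ρ(σ) = q` (helper3, `Gal/DetCyclo`) give
  the characteristic polynomial `X² ∓ (q + 1) X + q` (helper3, `Gal/FrobNew`).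
-/
import Fermat.Agent.S29lib.Z.Final
import Fermat.Agent.S29lib.S30.Assemble
import Fermat.Agent.S35lib.R3.Galois
import Fermat.Agent.S35lib.R3.AdicX
import Fermat.Agent.S35lib.R3.EigenG
import Fermat.Agent.S35lib.Gal.DetCyclo
import Fermat.Agent.S35lib.Gal.FrobNew

set_option autoImplicit false
set_option linter.style.haveILetI false
set_option linter.unusedSectionVars false

noncomputable section

namespace Fermat.Agent.S35lib

open Polynomial ModularCurve Fermat.Agent.S29lib Fermat.Agent.S29lib.X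
  Fermat.Agent.ExtVan.InertiaLift Fermat.Agent.S29lib.Dvr Fermat.Agent.S29lib.S30

/-- **S35 from `FrobKillTors`.** -/
theorem s35_of_frobKill (p : ℕ) [Fact p.Prime] (N : ℕ) [NeZero N]
    {g : CuspForm (CongruenceSubgroup.Gamma0 N) 2} (hg : g.IsNormalizedEigenform)
    (hK : FrobKillTors N p g) (S : Finset ℕ)
    (hpS : p ∈ S) (hNS : ∀ q : ℕ, q.Prime → q ∣ N → q ∈ S)
    (𝒪' : Type) [CommRing 𝒪'] [IsDomain 𝒪'] [IsDiscreteValuationRing 𝒪']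
    [IsAdicComplete (IsLocalRing.maximalIdeal 𝒪') 𝒪'] [Finite (IsLocalRing.ResidueField 𝒪')]
    [CharZero 𝒪'] (hp𝒪' : (p : 𝒪') ∈ IsLocalRing.maximalIdeal 𝒪')
    (chig : CuspForm.heckeAlgebra N 2 (↑S : Set ℕ) →+* ℂ)
    (hchig : ∀ (ℓ : ℕ) (hℓ : ℓ.Prime) (hℓN : ¬ ℓ ∣ N) (hℓS : ℓ ∉ (↑S : Set ℕ)),
      chig (CuspForm.heckeAlgebra.T hℓ hℓN hℓS) = ModularFormClass.qCoeff g ℓ)
    (iota : chig.range →+* 𝒪') :
    ∃ (𝒪'' : Type) (_ : CommRing 𝒪'') (_ : IsDomain 𝒪'') (_ : IsDiscreteValuationRing 𝒪'')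
      (_ : IsAdicComplete (IsLocalRing.maximalIdeal 𝒪'') 𝒪'')
      (_ : Finite (IsLocalRing.ResidueField 𝒪'')) (_ : CharZero 𝒪'')
      (_ : Algebra 𝒪' 𝒪'') (_ : Module.Finite 𝒪' 𝒪'') (_ : IsLocalHom (algebraMap 𝒪' 𝒪'')),
    Function.Injective (algebraMap 𝒪' 𝒪'') ∧
    ∃ ρ : GaloisRepAdic 𝒪'',
      (∀ (ℓ : ℕ) (hℓ : ℓ.Prime) (hℓN : ¬ ℓ ∣ N) (hℓS : ℓ ∉ (↑S : Set ℕ)),
        ∀ A : ValuationSubring (AlgebraicClosure ℚ), A.LiesOverPrime ℓ →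
          ∀ σ : AlgebraicClosure ℚ ≃ₐ[ℚ] AlgebraicClosure ℚ, A.IsFrobeniusAt σ ℓ →
            LinearMap.charpoly (ρ.ρ σ) =
              X ^ 2 - C (algebraMap 𝒪' 𝒪'' ((iota.comp chig.rangeRestrict)
                (CuspForm.heckeAlgebra.T hℓ hℓN hℓS))) * X + C ((ℓ : 𝒪''))) ∧
      (∀ q : ℕ, q.Prime → q ≠ p → q ∣ N → ¬ q ^ 2 ∣ N →
        ∀ A : ValuationSubring (AlgebraicClosure ℚ), A.LiesOverPrime q →
          ∀ σ : AlgebraicClosure ℚ ≃ₐ[ℚ] AlgebraicClosure ℚ, A.IsFrobeniusAt σ q →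
            LinearMap.charpoly (ρ.ρ σ) = X ^ 2 - C ((q : 𝒪'') + 1) * X + C ((q : 𝒪'')) ∨
            LinearMap.charpoly (ρ.ρ σ) = X ^ 2 + C ((q : 𝒪'') + 1) * X + C ((q : 𝒪''))) := by
  classical
  have hp : p.Prime := Fact.out
  -- comparison data, eigen input, local data
  obtain ⟨Cd, hCg⟩ := Z.compStatement N p hp
  have hL : LocalData N p := GH.localData_of_comparisonData Cd hp.ne_zero
  obtain ⟨EI⟩ := hCg g hg
  -- eigen data for `g` itself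
  obtain ⟨K₁, hfd, a₁, hfinL, ha₁, hkill₁⟩ :=
    exists_eigen_data_of_eigenform Cd hg EI (↑S : Set ℕ) hNS 𝒪' chig hchig iota
  haveI := hfd
  -- the DVR `O1`
  obtain ⟨_, _, _, _, _, hfin1, hloc1, hinj1⟩ := exists_dvr_structure 𝒪' (FractionRing 𝒪') K₁
  have hpO1 : (p : OL 𝒪' K₁) ∈ IsLocalRing.maximalIdeal (OL 𝒪' K₁) := by
    have h1 : (p : OL 𝒪' K₁) = algebraMap 𝒪' (OL 𝒪' K₁) (p : 𝒪') := (map_natCast _ p).symm
    rw [h1]
    exact map_nonunit (algebraMap 𝒪' (OL 𝒪' K₁)) _ hp𝒪'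
  -- brick C: the matrices
  obtain ⟨M, hM1, hM2, hM3, hM4⟩ := exists_adic_matrix_fn Cd hL hK (OL 𝒪' K₁) hpO1 a₁ hkill₁
    (algebraMap (OL 𝒪' K₁) K₁) Subtype.val_injective hfinL
  let P : AdicPiece N p (OL 𝒪' K₁) a₁ := ⟨M, hM1, hM2, hM3⟩
  have hPF : IsFrobNewPiece P := hM4
  -- brick E
  obtain ⟨O₂, i1, i2, i3, i4, i5, i6, i7, i8, i9, hinj2, ρ', hchar, hunr, hfn⟩ :=
    exists_galoisRepAdic_of_adicPiece_fn (NeZero.ne N) (OL 𝒪' K₁) hpO1 a₁ P hPF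
  -- the tower
  letI : Algebra 𝒪' O₂ := ((algebraMap (OL 𝒪' K₁) O₂).comp (algebraMap 𝒪' (OL 𝒪' K₁))).toAlgebra
  haveI : IsScalarTower 𝒪' (OL 𝒪' K₁) O₂ := IsScalarTower.of_algebraMap_eq fun _ => rfl
  haveI : Module.Finite 𝒪' O₂ := Module.Finite.trans (OL 𝒪' K₁) O₂
  haveI : IsLocalHom (algebraMap 𝒪' O₂) :=
    RingHom.isLocalHom_comp (algebraMap (OL 𝒪' K₁) O₂) (algebraMap 𝒪' (OL 𝒪' K₁))
  have hpO₂ : (p : O₂) ∈ IsLocalRing.maximalIdeal O₂ := by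
    have h1 : (p : O₂) = algebraMap (OL 𝒪' K₁) O₂ (p : OL 𝒪' K₁) := (map_natCast _ p).symm
    rw [h1]
    exact map_nonunit (algebraMap (OL 𝒪' K₁) O₂) _ hpO1
  refine ⟨O₂, i1, i2, i3, i4, i5, i6, inferInstance, inferInstance, inferInstance,
    hinj2.comp hinj1, ρ', ?_, ?_⟩
  · intro ℓ hℓ hℓN hℓS A hA σ hσ
    have hℓp : ℓ ≠ p := by
      rintro rfl
      exact hℓS (Finset.mem_coe.mpr hpS)
    rw [hchar ℓ hℓ (not_dvd_mul_of_prime hℓ hp hℓN hℓp) A hA σ hσ, ha₁ ℓ hℓ hℓN hℓS]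
    rfl
  · intro q hq hqp hqN hq2 A hA σ hσ
    have hq0 : (q : O₂) ≠ 0 := Nat.cast_ne_zero.mpr hq.ne_zero
    have hdet : LinearMap.det (ρ'.ρ σ) = (q : O₂) := by
      refine Gal.det_frobenius_lift p hpO₂ ρ' (insert p N.primeFactors) ?_ hq hqp hA hσ
      intro ℓ hℓ hℓS₀ B hB φ hφ
      have hℓNp : ¬ ℓ ∣ N * p := by
        refine not_dvd_mul_of_prime hℓ hp (fun hdvd => hℓS₀ ?_) (fun h => hℓS₀ ?_)
        · exact Finset.mem_insert_of_mem (Nat.mem_primeFactors.mpr ⟨hℓ, hdvd, NeZero.ne N⟩)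
        · rw [h]
          exact Finset.mem_insert_self _ _
      exact ⟨_, hchar ℓ hℓ hℓNp B hB φ hφ⟩
    have h := Gal.charpoly_of_frobNew ρ'.finrank_eq (ρ'.ρ σ) (q : O₂) hq0
      (hfn q hq hqp hqN hq2 A hA σ hσ) hdet
    exact h

end Fermat.Agent.S35lib
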