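/-
S35lib / R3 (lead), step 1.  **Killed quadratic relations** on a torsion system: let `P` be a
noncommutative integer polynomial in the Hecke operators (an element of `FreeAlgebra ℤ I`), `s` an
element of the acting monoid, and `c u v : ℤ`.  If on every `T k` the operator
`c • (s² - u s + v)` kills the image of `P(t)`, the same holds for the matrices `galMat k s` and
for their adic limits; on a common eigenvector `x` of the Hecke matrices, `P(t)` acts as the scalar
`P(a)`.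
-/
import Fermat.Agent.S29lib.S30.AdicLattice

set_option autoImplicit false

noncomputable section

namespace Fermat.Agent.S35lib

open Matrix Fermat.Agent.S29lib.E Fermat.Agent.S29lib.S30

variable {G I : Type} [Monoid G] {p r : ℕ} (𝒯 : TorsionSystem G I p r)

/-- the value of a noncommutative polynomial at the integer Hecke matrices -/
def killMatZ : FreeAlgebra ℤ I →ₐ[ℤ] Matrix (Fin r) (Fin r) ℤ :=
  FreeAlgebra.lift ℤ 𝒯.t

/-- the value of a noncommutative polynomial at the Hecke matrices over a commutative ring -/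
def killMatR (R : Type*) [CommRing R] : FreeAlgebra ℤ I →ₐ[ℤ] Matrix (Fin r) (Fin r) R :=
  FreeAlgebra.lift ℤ (fun i => (𝒯.t i).map (Int.cast : ℤ → R))

/-- integer multiples of the identity and casts -/
lemma map_intCast_smul_one (R : Type*) [CommRing R] (c : ℤ) :
    (c • (1 : Matrix (Fin r) (Fin r) ℤ)).map (Int.cast : ℤ → R) =
      (c : R) • (1 : Matrix (Fin r) (Fin r) R) := by
  ext i j
  rw [Matrix.map_apply, Matrix.smul_apply, Matrix.smul_apply, Matrix.one_apply, Matrix.one_apply]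
  split_ifs <;> simp

lemma killMatR_eq_map (R : Type*) [CommRing R] (P : FreeAlgebra ℤ I) :
    killMatR 𝒯 R P = (killMatZ 𝒯 P).map (Int.cast : ℤ → R) := by
  induction P using FreeAlgebra.induction with
  | grade0 n =>
    rw [AlgHom.commutes, AlgHom.commutes, Algebra.algebraMap_eq_smul_one,
      Algebra.algebraMap_eq_smul_one, map_intCast_smul_one, Int.cast_smul_eq_zsmul]
  | grade1 i => rw [killMatR, killMatZ, FreeAlgebra.lift_ι_apply, FreeAlgebra.lift_ι_apply]
  | add P Q hP hQ =>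
    rw [map_add, map_add, hP, hQ]
    exact (Matrix.map_add _ (map_add (Int.castRingHom R)) _ _).symm
  | mul P Q hP hQ =>
    rw [map_mul, map_mul, hP, hQ]
    exact (Matrix.map_mul (f := Int.castRingHom R)).symm

/-- on a common eigenvector, `P(t)` acts as the scalar `P(a)` -/
lemma killMatR_mulVec_eigen {R : Type*} [CommRing R] (a : I → R) (x : Fin r → R)
    (hx : ∀ i, (𝒯.t i).map (Int.cast : ℤ → R) *ᵥ x = a i • x) (P : FreeAlgebra ℤ I) :
    killMatR 𝒯 R P *ᵥ x = (FreeAlgebra.lift ℤ a P) • x := by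
  induction P using FreeAlgebra.induction with
  | grade0 n =>
    rw [AlgHom.commutes, AlgHom.commutes, Algebra.algebraMap_eq_smul_one,
      Algebra.algebraMap_eq_smul_one, Matrix.smul_mulVec, Matrix.one_mulVec, smul_assoc, one_smul]
  | grade1 i =>
    rw [killMatR, FreeAlgebra.lift_ι_apply, FreeAlgebra.lift_ι_apply]
    exact hx i
  | add P Q hP hQ => rw [map_add, map_add, Matrix.add_mulVec, hP, hQ, add_smul]
  | mul P Q hP hQ =>
    rw [map_mul, map_mul, ← Matrix.mulVec_mulVec, hQ, Matrix.mulVec_smul, hP, smul_smul, mul_comm]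

/-- the killed quadratic relation, modulo `p^k`, with integer matrices as coefficients -/
lemma galMat_quad_kill (k : ℕ) (s : G) (c u v : ℤ) (P : FreeAlgebra ℤ I)
    (h : ∀ x : 𝒯.T k, ∃ y : 𝒯.T k, 𝒯.κ k y = killMatR 𝒯 (ZMod (p ^ k)) P *ᵥ 𝒯.κ k x ∧
      c • (𝒯.act k s (𝒯.act k s y) - u • 𝒯.act k s y + v • y) = 0) :
    (c • (1 : Matrix (Fin r) (Fin r) ℤ)).map (Int.cast : ℤ → ZMod (p ^ k)) *
      ((𝒯.galMat k s * 𝒯.galMat k s
        - (u • (1 : Matrix (Fin r) (Fin r) ℤ)).map (Int.cast : ℤ → ZMod (p ^ k)) * 𝒯.galMat k s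
        + (v • (1 : Matrix (Fin r) (Fin r) ℤ)).map (Int.cast : ℤ → ZMod (p ^ k))) *
        (killMatZ 𝒯 P).map (Int.cast : ℤ → ZMod (p ^ k))) = 0 := by
  apply 𝒯.mat_ext_κ
  intro x
  obtain ⟨y, hy, hrel⟩ := h x
  have e : ∀ a b : 𝒯.T k, (c : ZMod (p ^ k)) • (𝒯.κ k a - (u : ZMod (p ^ k)) • 𝒯.κ k b
      + (v : ZMod (p ^ k)) • 𝒯.κ k y) = 𝒯.κ k (c • (a - u • b + v • y)) := by
    intro a b
    rw [map_zsmul, map_add, map_sub, map_zsmul, map_zsmul, Int.cast_smul_eq_zsmul,
      Int.cast_smul_eq_zsmul, Int.cast_smul_eq_zsmul]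
  rw [← killMatR_eq_map, map_intCast_smul_one, map_intCast_smul_one, map_intCast_smul_one,
    Matrix.smul_mul, Matrix.one_mul, Matrix.smul_mul, Matrix.one_mul,
    Matrix.zero_mulVec, Matrix.smul_mulVec, ← Matrix.mulVec_mulVec, ← hy, Matrix.add_mulVec,
    Matrix.sub_mulVec, ← Matrix.mulVec_mulVec, Matrix.smul_mulVec, 𝒯.galMat_mulVec_κ k s y,
    𝒯.galMat_mulVec_κ k s (𝒯.act k s y), Matrix.smul_mulVec, Matrix.one_mulVec, e, hrel,
    map_zero]

variable {O : Type} [CommRing O] (J : Ideal O) [IsAdicComplete J O] (hpJ : (p : O) ∈ J)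

/-- the killed quadratic relation for the limit matrices -/
lemma galMatO_quad_kill (s : G) (c u v : ℤ) (P : FreeAlgebra ℤ I)
    (h : ∀ k, ∀ x : 𝒯.T k, ∃ y : 𝒯.T k,
      𝒯.κ k y = killMatR 𝒯 (ZMod (p ^ k)) P *ᵥ 𝒯.κ k x ∧
      c • (𝒯.act k s (𝒯.act k s y) - u • 𝒯.act k s y + v • y) = 0) :
    (c : O) • ((galMatO 𝒯 J hpJ s * galMatO 𝒯 J hpJ s - (u : O) • galMatO 𝒯 J hpJ s
      + (v : O) • (1 : Matrix (Fin r) (Fin r) O)) * killMatR 𝒯 O P) = 0 := by
  have hG := isLim_galMatO 𝒯 J hpJ s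
  have h1 := (IsLim.intCast J hpJ (c • (1 : Matrix (Fin r) (Fin r) ℤ))).mul J hpJ
    ((((hG.mul J hpJ hG).sub J hpJ
      ((IsLim.intCast J hpJ (u • (1 : Matrix (Fin r) (Fin r) ℤ))).mul J hpJ hG)).add J hpJ
      (IsLim.intCast J hpJ (v • (1 : Matrix (Fin r) (Fin r) ℤ)))).mul J hpJ
      (IsLim.intCast J hpJ (killMatZ 𝒯 P)))
  have h2 : (c • (1 : Matrix (Fin r) (Fin r) ℤ)).map (Int.cast : ℤ → O) *
      ((galMatO 𝒯 J hpJ s * galMatO 𝒯 J hpJ s
        - (u • (1 : Matrix (Fin r) (Fin r) ℤ)).map (Int.cast : ℤ → O) * galMatO 𝒯 J hpJ s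
        + (v • (1 : Matrix (Fin r) (Fin r) ℤ)).map (Int.cast : ℤ → O)) *
        (killMatZ 𝒯 P).map (Int.cast : ℤ → O)) = 0 := by
    apply IsLim.unique J hpJ h1
    intro k
    rw [IsLim.zero J hpJ k]
    simp only
    congr 1
    exact (galMat_quad_kill 𝒯 k s c u v P (h k)).symm
  rw [map_intCast_smul_one, map_intCast_smul_one, map_intCast_smul_one, Matrix.smul_mul,
    Matrix.one_mul, Matrix.smul_mul, Matrix.one_mul, ← killMatR_eq_map] at h2
  exact h2

end Fermat.Agent.S35lib
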